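/-
Row 37 (S43), block E0, sub-block OUT (helper284).  The dictionary `picHom : W N n → J₀(N)[n]` is compatible with
the Hecke operators `T_ℓ` (`ℓ ∤ N`):  `picHom (T_ℓ c) = Tp N ℓ (picHom c)`, for ANY `GAL.E.HeckeOp N ℓ`.
-/
import Fermat.Agent.S43.E0.Inst.Tor
import Fermat.Agent.GAL.E.Exists
import Fermat.Agent.S15.HJ.Red

set_option autoImplicit false

noncomputable section

namespace Fermat.Agent.S43.E0.Out

open ModularCurve AlgebraicCurve Fermat.Agent.S24 Fermat.Agent.S19.Weil Fermat.Agent.S15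
  Fermat.Agent.S43.Free Fermat.Agent.GAL.E Fermat.Agent.S43.E0.Inst

variable (N n : ℕ) [NeZero N] [NeZero n]

/-- **The dictionary commutes with `T_ℓ`.** -/
theorem picHom_TW {ℓ : ℕ} [NeZero ℓ] (hℓ : ℓ.Prime) (hℓN : ¬ ℓ ∣ N) (H : HeckeOp N ℓ)
    (c : W N n) : picHom N n (H.TW n c) = Tp N ℓ (picHom N n c) := by
  obtain ⟨u, rfl⟩ := cls_surjective c
  obtain ⟨a, ha⟩ := exists_torsRep_cls (L := FN N) (NeZero.pos n) u
  have hu0 : (((u : (FN N)ˣ) : FN N)) ≠ 0 := Units.ne_zero _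
  have hdeg : Divisor.degree (S37.HeckeInputs.heckeDiv N ℓ a.D) = 0 :=
    S37.HeckeInputs.heckeDiv_mem_degZero N ℓ (D := a.D) a.deg
  have e1 : picHom N n (cls u) = Pic0.mk ⟨a.D, a.deg⟩ := by
    rw [← S27.cls_eq_mk a.deg]
    exact a.cls_eq.symm
  have e2 : Tp N ℓ (Pic0.mk ⟨a.D, a.deg⟩) = S27.cls (S37.HeckeInputs.heckeDiv N ℓ a.D) := by
    rw [S15.Tp_eq, S27.cls_eq_mk hdeg]
    exact S37.HeckeInputs.heckeOperatorAlong_mk N ℓ ⟨a.D, a.deg⟩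
  rw [e1, e2, H.TW_cls]
  refine picW_eq (L := FN N) (NeZero.pos n) ?_
  refine ⟨_, S37.HeckeInputs.heckeDiv N ℓ a.D, hdeg, rfl, rfl, fun v => ?_⟩
  have h1 := S15.HJ.heckeDiv_of_ord N ℓ hu0 (D := (n : ℤ) • a.D)
    (fun v => by rw [a.div.2 v, ha]) v
  show v.ord (H.T ((u : (FN N)ˣ) : FN N)) = _
  rw [H.T_eq_heckeF hℓ hℓN, ← h1, map_zsmul, Finsupp.smul_apply, smul_eq_mul]

end Fermat.Agent.S43.E0.Out

end
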