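/-
Row 37 (S43), block E0, sub-block OUT (helper284).  (B2): the `m`-part in the two languages, GENERIC LEVEL `N`.

* `tN N Wm p n i`  : `T_ℓ - a_ℓ(Wm)` on the Kummer model `GAL.E.W N n` (`ℓ = i.1` a good prime of `Wm`, `ℓ ∤ N p`);
* `picHom_tN`      : `picHom (tN i c) = eta i' (picHom c)`;
* `mem_loc_tN_iff` : for `n = p ^ k`,  `c ∈ LocZ.loc (tN N Wm p n) ↔ picHom N n c ∈ Inst.VV N p Wm.IsGoodPrimeFor a(Wm)`;
* `exists_mem_loc_picHom_eq` : every `x ∈ VV` with `p ^ k x = 0` is `picHom c`, `c ∈ loc`.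
-/
import Fermat.Agent.S43.E0.Out.Pic
import Fermat.Agent.S43.Glue.Conc.Defs

set_option autoImplicit false
set_option linter.unusedSectionVars false

noncomputable section

namespace Fermat.Agent.S43.E0.Out

open ModularCurve AlgebraicCurve Fermat.Agent.S24 Fermat.Agent.S15
  Fermat.Agent.S43.Free Fermat.Agent.GAL.E Fermat.Agent.S43.E0.Inst Fermat.Agent.S43.Glue

variable (N : ℕ) [NeZero N] (Wm : WeierstrassCurve ℤ) (p n : ℕ)

theorem idx_not_dvd (i : Conc.Idx Wm (N * p)) : ¬ i.1 ∣ N := fun h => i.2.2.2 (h.mul_right p)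

/-- `T_ℓ` on `GAL.E.W N n`. -/
def TN (i : Conc.Idx Wm (N * p)) : W N n →+ W N n :=
  @HeckeOp.TW N i.1 ⟨i.2.1.ne_zero⟩
    (@heckeOp N i.1 _ ⟨i.2.1.ne_zero⟩ i.2.1 (idx_not_dvd N Wm p i)) n

/-- **The localising family at level `Γ₀(N)`**, language of `GAL.E`. -/
def tN (i : Conc.Idx Wm (N * p)) : W N n →+ W N n :=
  Conc.opSub (TN N Wm p n i) (Wm.apOfModel i.1)

/-- The index of `E0/Inst` attached to an index of GLUE. -/
def toIdx (i : Conc.Idx Wm (N * p)) : Inst.Idx N p Wm.IsGoodPrimeFor :=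
  ⟨i.1, i.2.1, i.2.2.2, i.2.2.1⟩

/-- The index of GLUE attached to an index of `E0/Inst`. -/
def ofIdx (i : Inst.Idx N p Wm.IsGoodPrimeFor) : Conc.Idx Wm (N * p) :=
  ⟨i.1, i.2.1, i.2.2.2, i.2.2.1⟩

theorem toIdx_ofIdx (i : Inst.Idx N p Wm.IsGoodPrimeFor) : toIdx N Wm p (ofIdx N Wm p i) = i := rfl

variable [NeZero n]

theorem picHom_tN (i : Conc.Idx Wm (N * p)) (c : W N n) :
    picHom N n (tN N Wm p n i c) =
      eta N p Wm.IsGoodPrimeFor (fun l => Wm.apOfModel l) (toIdx N Wm p i) (picHom N n c) := by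
  have : NeZero i.1 := ⟨i.2.1.ne_zero⟩
  have h1 : picHom N n (TN N Wm p n i c) = Tp N i.1 (picHom N n c) :=
    picHom_TW N n i.2.1 (idx_not_dvd N Wm p i) _ c
  rw [tN, Conc.opSub_apply, map_sub, map_zsmul, h1]
  show _ = Tp N i.1 (picHom N n c) -
    ((Wm.apOfModel i.1 : ℤ) : AddMonoid.End (JZero N)) (picHom N n c)
  congr 1

theorem picHom_iterate_tN (i : Conc.Idx Wm (N * p)) (k : ℕ) (c : W N n) :
    picHom N n ((tN N Wm p n i)^[k] c) =
      (eta N p Wm.IsGoodPrimeFor (fun l => Wm.apOfModel l) (toIdx N Wm p i) ^ k)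
        (picHom N n c) := by
  induction k generalizing c with
  | zero => rfl
  | succ k ih =>
    rw [Function.iterate_succ_apply, ih, picHom_tN, pow_succ]
    rfl

/-- **(B2)** the two `m`-parts correspond. -/
theorem mem_loc_tN_iff {k : ℕ} (hn : n = p ^ k) (c : W N n) :
    c ∈ LocZ.loc (tN N Wm p n) ↔
      picHom N n c ∈ VV N p Wm.IsGoodPrimeFor (fun l => Wm.apOfModel l) := by
  constructor
  · intro hc
    refine ⟨⟨k, ?_⟩, fun i => ?_⟩
    · rw [← hn]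
      exact picHom_mem_tors N n c
    · obtain ⟨j, hj⟩ := hc (ofIdx N Wm p i)
      refine ⟨j, ?_⟩
      have := picHom_iterate_tN N Wm p n (ofIdx N Wm p i) j c
      rw [hj, map_zero] at this
      exact this.symm
  · rintro ⟨-, hc⟩ i
    obtain ⟨j, hj⟩ := hc (toIdx N Wm p i)
    refine ⟨j, picHom_injective N n ?_⟩
    rw [picHom_iterate_tN, hj, map_zero]

/-- Every point of `VV[p ^ k]` comes from the `m`-part of the Kummer model. -/
theorem exists_mem_loc_picHom_eq {k : ℕ} (hn : n = p ^ k) {x : JZero N}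
    (hx : x ∈ VV N p Wm.IsGoodPrimeFor (fun l => Wm.apOfModel l)) (hk : p ^ k • x = 0) :
    ∃ c ∈ LocZ.loc (tN N Wm p n), picHom N n c = x := by
  obtain ⟨c, rfl⟩ := exists_picHom_eq N n (x := x) (by rw [Pair.mem_tors, hn]; exact hk)
  exact ⟨c, (mem_loc_tN_iff N Wm p n hn c).2 hx, rfl⟩

end Fermat.Agent.S43.E0.Out

end
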